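import Fermat.Agent.FamilyZeroDensity.Series
import Fermat.Agent.FamilyZeroDensity.Field

/-!
# Harmonic averages of finite differences

`∑_{k=1}^L r_k (c) / k = (r_0 - r_L) / c` for the differences `r_k (c)` of `1/(c + j)`, so the
average over `k` with weights `1/k` of the differences of `re 1/(c + j)` is `O (1/|c| ^ 2)`.
-/

set_option autoImplicit false
set_option linter.style.haveILetI false

noncomputable section

open Filter Topology Finset
open FA.EulerKroneckerFamilies FA.GRHBasicInequality FA.FamilyZeroDensity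
open scoped Real

namespace FA.DedekindMultiplicity

/-- `∑_{k=1}^L (1/k) Δ^k f`. -/
def avgAlt (L : ℕ) (f : ℕ → ℝ) : ℝ := ∑ k ∈ Finset.Icc 1 L, (k : ℝ)⁻¹ * altSum k f

theorem harmonic_cast (L : ℕ) : (harmonic L : ℝ) = ∑ k ∈ Finset.Icc 1 L, (k : ℝ)⁻¹ := by
  rw [harmonic_eq_sum_Icc]
  push_cast
  rfl

theorem avgAlt_mono_abs {L : ℕ} {f : ℕ → ℝ} {B : ℝ}
    (h : ∀ k ∈ Finset.Icc 1 L, |altSum k f| ≤ B) : |avgAlt L f| ≤ (harmonic L : ℝ) * B := by
  rw [avgAlt, harmonic_cast, Finset.sum_mul]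
  refine (Finset.abs_sum_le_sum_abs _ _).trans (Finset.sum_le_sum fun k hk => ?_)
  rw [abs_mul, abs_of_nonneg (inv_nonneg.2 (Nat.cast_nonneg k))]
  exact mul_le_mul_of_nonneg_left (h k hk) (inv_nonneg.2 (Nat.cast_nonneg k))

/-- `r_k (c)` at a complex point. -/
def cRatio (c : ℂ) (k : ℕ) : ℂ := (k.factorial : ℂ) / ∏ i ∈ Finset.range (k + 1), (c + i)

theorem sum_cRatio (L : ℕ) {c : ℂ} (hc : ∀ i : ℕ, c + i ≠ 0) :
    ∑ k ∈ Finset.Icc 1 L, (k : ℂ)⁻¹ * cRatio c k = (cRatio c 0 - cRatio c L) / c := by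
  induction L with
  | zero => simp
  | succ L ih =>
    rw [Finset.sum_Icc_succ_top (by omega), ih]
    have hc0 : c ≠ 0 := by simpa using hc 0
    have hp : ∏ i ∈ Finset.range (L + 1), (c + i) ≠ 0 :=
      Finset.prod_ne_zero_iff.2 fun i _ => hc i
    have hL : ((L : ℂ) + 1) ≠ 0 := Nat.cast_add_one_ne_zero L
    have hcl : c + ((L : ℂ) + 1) ≠ 0 := by simpa using hc (L + 1)
    simp only [cRatio]
    rw [Finset.prod_range_succ _ (L + 1), Nat.factorial_succ]
    push_cast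
    field_simp
    ring

theorem norm_cRatio_le (k : ℕ) {c : ℂ} (hc : 0 < c.re) : ‖cRatio c k‖ ≤ ‖c‖⁻¹ := by
  rw [cRatio, norm_div, Complex.norm_natCast, norm_prod, Finset.prod_range_succ']
  simp only [Nat.cast_zero, add_zero]
  have h0 : 0 < ‖c‖ := norm_pos_iff.2 fun h => by simp [h] at hc
  have h1 : (k.factorial : ℝ) ≤ ∏ i ∈ Finset.range k, ‖c + ((i + 1 : ℕ) : ℂ)‖ := by
    rw [← Finset.prod_range_add_one_eq_factorial, Nat.cast_prod]
    refine Finset.prod_le_prod (fun i _ => Nat.cast_nonneg _) fun i _ => ?_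
    refine le_trans ?_ (Complex.re_le_norm _)
    simp
    linarith
  have h2 : 0 < ∏ i ∈ Finset.range k, ‖c + ((i + 1 : ℕ) : ℂ)‖ :=
    (Nat.cast_pos.2 k.factorial_pos).trans_le h1
  rw [div_le_iff₀ (mul_pos h2 h0), mul_comm _ ‖c‖, ← mul_assoc, inv_mul_cancel₀ h0.ne', one_mul]
  exact h1

/-- **The averaged differences of `re 1/(c + j)`.** -/
theorem abs_avgAlt_re_inv_le (L : ℕ) {c : ℂ} (hc : 0 < c.re) :
    |avgAlt L fun j : ℕ => ((c + j)⁻¹).re| ≤ 2 / Complex.normSq c := by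
  have hne : ∀ i : ℕ, c + i ≠ 0 := fun i h => by
    have := congrArg Complex.re h
    simp at this
    linarith [(Nat.cast_nonneg i : (0 : ℝ) ≤ i)]
  have e : (avgAlt L fun j : ℕ => ((c + j)⁻¹).re) =
      (∑ k ∈ Finset.Icc 1 L, (k : ℂ)⁻¹ * cRatio c k).re := by
    rw [avgAlt, Complex.re_sum]
    refine Finset.sum_congr rfl fun k _ => ?_
    rw [cRatio, ← altSum_inv_add k hne, show ((k : ℂ))⁻¹ = (((k : ℝ)⁻¹ : ℝ) : ℂ) by push_cast; rfl,
      Complex.re_ofReal_mul]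
    congr 1
    simp only [altSum, Complex.re_sum]
    refine Finset.sum_congr rfl fun j _ => ?_
    rw [show ((-1) ^ j * (k.choose j : ℂ)) = (((-1) ^ j * (k.choose j : ℝ) : ℝ) : ℂ) by
      push_cast; rfl, Complex.re_ofReal_mul]
  rw [e, sum_cRatio L hne]
  refine (Complex.abs_re_le_norm _).trans ?_
  rw [norm_div, Complex.normSq_eq_norm_sq, sq, ← div_div]
  refine div_le_div_of_nonneg_right ?_ (norm_nonneg c)
  refine (norm_sub_le _ _).trans ?_
  have := norm_cRatio_le 0 hc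
  have := norm_cRatio_le L hc
  rw [div_eq_mul_inv]
  linarith

theorem fdRatio_le_zero {c : ℝ} (hc : 0 < c) (k : ℕ) : fdRatio c k ≤ c⁻¹ := by
  induction k with
  | zero => simp [fdRatio]
  | succ k ih =>
    rw [fdRatio_succ hc]
    linarith [fdRatio_pos (show 0 < c + 1 by linarith) k]

theorem factorial_le_sqrt {k : ℕ} (hk : 1 ≤ k) :
    (k.factorial : ℝ) ≤ 2 * √(k : ℝ) * ∏ i ∈ Finset.range k, ((i : ℝ) + 1 / 2) := by
  induction k, hk using Nat.le_induction with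
  | base => norm_num
  | succ k hk ih =>
    rw [Finset.prod_range_succ, Nat.factorial_succ]
    push_cast
    have h0 : 0 ≤ ∏ i ∈ Finset.range k, ((i : ℝ) + 1 / 2) :=
      Finset.prod_nonneg fun i _ => by positivity
    have hk : (1 : ℝ) ≤ k := Nat.one_le_cast.2 hk
    have h1 : ((k : ℝ) + 1) * √(k : ℝ) ≤ ((k : ℝ) + 1 / 2) * √((k : ℝ) + 1) := by
      rw [show ((k : ℝ) + 1) * √(k : ℝ) = √(((k : ℝ) + 1) ^ 2 * k) by
          rw [Real.sqrt_mul (by positivity), Real.sqrt_sq (by positivity)],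
        show ((k : ℝ) + 1 / 2) * √((k : ℝ) + 1) = √(((k : ℝ) + 1 / 2) ^ 2 * ((k : ℝ) + 1)) by
          rw [Real.sqrt_mul (by positivity), Real.sqrt_sq (by positivity)]]
      refine Real.sqrt_le_sqrt ?_
      nlinarith
    calc ((k : ℝ) + 1) * (k.factorial : ℝ)
        ≤ ((k : ℝ) + 1) * (2 * √(k : ℝ) * ∏ i ∈ Finset.range k, ((i : ℝ) + 1 / 2)) :=
          mul_le_mul_of_nonneg_left ih (by positivity)
      _ = 2 * (((k : ℝ) + 1) * √(k : ℝ)) * ∏ i ∈ Finset.range k, ((i : ℝ) + 1 / 2) := by ring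
      _ ≤ 2 * (((k : ℝ) + 1 / 2) * √((k : ℝ) + 1)) *
          ∏ i ∈ Finset.range k, ((i : ℝ) + 1 / 2) :=
          mul_le_mul_of_nonneg_right (mul_le_mul_of_nonneg_left h1 zero_le_two) h0
      _ = _ := by ring

end FA.DedekindMultiplicity

end
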