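import Fermat.Agent.DedekindMultiplicity.Terms
import Fermat.Agent.FamilyZeroDensity.Integral

/-!
# The zeros of a Dedekind zeta function in a short window, on the Riemann hypothesis

Averaging the differences of `re ξ'/ξ` at `1/2 + a + i x + j` over their orders gives
`re ξ'/ξ (1/2 + a + i x) ≤ 4 (g + 16 √L + 16 n log (|x| + 3))` for `a = 4/H_L`, so a window of
radius `1/log G` holds `O (G / log G)` ordinates, `G = g + n log (|t| + 3) + 3`.
-/

set_option autoImplicit false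
set_option linter.style.haveILetI false

noncomputable section

universe u

open NumberField InfinitePlace Module Filter Topology Set
open FA.TsfasmanVladut FA.EulerKroneckerFamilies FA.GRHBasicInequality
open FA.FamilyZeroDensity FA.DedekindHadamard
open scoped Real Classical

namespace FA.DedekindMultiplicity

theorem avgAlt_mul_left (L : ℕ) (c : ℝ) (f : ℕ → ℝ) :
    avgAlt L (fun j => c * f j) = c * avgAlt L f := by
  simp only [avgAlt, altSum_mul_left, Finset.mul_sum]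
  exact Finset.sum_congr rfl fun k _ => mul_left_comm _ _ _

variable (K : Type u) [Field K] [NumberField K]

theorem abs_avgAlt_reTerm_le (hRH : RHFor K) (L : ℕ) {a : ℝ} (ha : 0 < a) (x : ℝ) (ρ : ℂ) :
    |avgAlt L fun j : ℕ => reTerm K (pt (1 / 2 + a + j) x) ρ| ≤
      2 / a * reTerm K (pt (1 / 2 + a) x) ρ := by
  obtain ⟨c, hc⟩ : ∃ c : ℂ, c = pt a (x - ρ.im) := ⟨_, rfl⟩
  have hcre : c.re = a := by rw [hc, pt_re]
  have e : (fun j : ℕ => reTerm K (pt (1 / 2 + a + j) x) ρ) =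
      fun j : ℕ => (xiMult K ρ : ℝ) * ((c + j)⁻¹).re := by
    funext j
    rw [reTerm_pt K hRH, hc, pt_add_natCast, Complex.inv_re, Complex.normSq_apply, pt_re, pt_im,
      show 1 / 2 + a + (j : ℝ) - 1 / 2 = a + j by ring, sq, sq]
  rw [e, avgAlt_mul_left, abs_mul, Nat.abs_cast, reTerm_pt K hRH, add_sub_cancel_left,
    mul_left_comm (2 / a)]
  refine mul_le_mul_of_nonneg_left ((abs_avgAlt_re_inv_le L (hcre.symm ▸ ha)).trans_eq ?_)
    (Nat.cast_nonneg _)
  rw [hc, Complex.normSq_apply, pt_re, pt_im, ← sq, ← sq]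
  field_simp

theorem abs_avgAlt_fieldLog_le (hRH : RHFor K) (L : ℕ) {a : ℝ} (ha : 0 < a) (x : ℝ) :
    |avgAlt L fun j : ℕ => fieldLog K (pt (1 / 2 + a + j) x)| ≤
      2 / a * fieldLog K (pt (1 / 2 + a) x) := by
  have hne : ∀ j : ℕ, 1 / 2 < 1 / 2 + a + j := fun j => by
    linarith [(Nat.cast_nonneg j : (0 : ℝ) ≤ j)]
  have hs : HasSum (fun ρ => avgAlt L fun j : ℕ => reTerm K (pt (1 / 2 + a + j) x) ρ)
      (avgAlt L fun j : ℕ => fieldLog K (pt (1 / 2 + a + j) x)) :=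
    hasSum_sum fun k _ => HasSum.mul_left _ <|
      hasSum_sum fun j _ => (hasSum_reTerm K (xiFun_pt_ne K hRH (hne j) x)).mul_left _
  have h2 := (hasSum_reTerm K (xiFun_pt_ne K hRH (σ := 1 / 2 + a) (by linarith) x)).mul_left (2 / a)
  rw [abs_le]
  exact ⟨hasSum_le (fun ρ => (abs_le.1 (abs_avgAlt_reTerm_le K hRH L ha x ρ)).1) h2.neg hs,
    hasSum_le (fun ρ => (abs_le.1 (abs_avgAlt_reTerm_le K hRH L ha x ρ)).2) hs h2⟩

/-- **The averaged explicit formula.** -/
theorem avgAlt_fieldLog_eq (L : ℕ) {σ : ℝ} (hσ : 0 < σ) (x : ℝ) :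
    (avgAlt L fun j : ℕ => fieldLog K (pt (σ + j) x)) =
      (harmonic L : ℝ) * (fieldLog K (pt σ x) - logGenus K) + avgAlt L (poleTerms (pt σ x)) -
        avgAlt L (archTerms K (pt σ x)) - avgAlt L (primeTerms K (pt σ x)) := by
  have e : (fun j : ℕ => if j = 0 then 0 else fieldLog K (pt (σ + j) x)) = fun j : ℕ =>
      ((if j = 0 then 0 else logGenus K) + poleTerms (pt σ x) j) - archTerms K (pt σ x) j -
        primeTerms K (pt σ x) j := by
    funext j
    simp only [poleTerms, archTerms, primeTerms]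
    split_ifs with hj
    · simp
    · have h1 : 1 < (pt (σ + j) x).re := by
        have : (1 : ℝ) ≤ j := Nat.one_le_cast.2 (Nat.pos_of_ne_zero hj)
        rw [pt_re]
        linarith
      rw [fieldLog_formula K h1, pt_add_natCast]
      ring
  rw [avgAlt, avgAlt, avgAlt, avgAlt, harmonic_cast, Finset.sum_mul, ← Finset.sum_add_distrib,
    ← Finset.sum_sub_distrib, ← Finset.sum_sub_distrib]
  refine Finset.sum_congr rfl fun k hk => ?_
  have hk1 : 1 ≤ k := (Finset.mem_Icc.1 hk).1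
  have h1 : altSum k (fun j : ℕ => if j = 0 then 0 else fieldLog K (pt (σ + j) x)) =
      altSum k (fun j : ℕ => fieldLog K (pt (σ + j) x)) - fieldLog K (pt σ x) := by
    rw [altSum_ite, Nat.cast_zero, add_zero]
    ring
  have h2 : altSum k (fun j : ℕ => if j = 0 then 0 else logGenus K) = -logGenus K := by
    rw [altSum_ite, altSum_const hk1]
    ring
  have h3 : altSum k (fun j : ℕ => if j = 0 then 0 else fieldLog K (pt (σ + j) x)) =
      (-logGenus K + altSum k (poleTerms (pt σ x))) - altSum k (archTerms K (pt σ x)) -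
        altSum k (primeTerms K (pt σ x)) := by
    rw [e, altSum_sub, altSum_sub, altSum_add, h2]
  linear_combination (k : ℝ)⁻¹ * (h3 - h1)

theorem abs_avgAlt_primeTerms_le {σ x : ℝ} (hσ : 1 / 2 < σ) (L : ℕ) :
    |avgAlt L (primeTerms K (pt σ x))| ≤ -avgAlt L (primeTerms K (pt σ 0)) := by
  rw [avgAlt, avgAlt, ← Finset.sum_neg_distrib]
  refine (Finset.abs_sum_le_sum_abs _ _).trans (Finset.sum_le_sum fun k _ => ?_)
  rw [abs_mul, abs_of_nonneg (inv_nonneg.2 (Nat.cast_nonneg k)), ← mul_neg]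
  exact mul_le_mul_of_nonneg_left (abs_altSum_primeTerms_le K hσ k)
    (inv_nonneg.2 (Nat.cast_nonneg k))

theorem abs_avgAlt_rest_le {σ x : ℝ} (hσ : 1 / 2 < σ) (hσ1 : σ ≤ 3 / 4) (L : ℕ) :
    |avgAlt L (poleTerms (pt σ x)) - avgAlt L (archTerms K (pt σ x))| ≤
      (harmonic L : ℝ) * (16 * √(L : ℝ) + 16 * Real.log (|x| + 3) * finrank ℚ K) := by
  have hP : |avgAlt L (poleTerms (pt σ x))| ≤ (harmonic L : ℝ) * (16 * √(L : ℝ)) :=
    avgAlt_mono_abs fun k hk => (abs_altSum_poleTerms_le hσ hσ1 (Finset.mem_Icc.1 hk).1).trans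
      (mul_le_mul_of_nonneg_left (Real.sqrt_le_sqrt (Nat.cast_le.2 (Finset.mem_Icc.1 hk).2))
        (by norm_num))
  have hA : |avgAlt L (archTerms K (pt σ x))| ≤
      (harmonic L : ℝ) * (16 * Real.log (|x| + 3) * finrank ℚ K) :=
    avgAlt_mono_abs fun k hk =>
      abs_altSum_archTerms_le K hσ (by linarith) (Finset.mem_Icc.1 hk).1
  rw [mul_add]
  exact (abs_sub _ _).trans (add_le_add hP hA)

/-- **`re ξ'/ξ` at distance `4/H_L` from the critical line.** -/
theorem fieldLog_le_harmonic (hRH : RHFor K) {L : ℕ} (hL : 16 ≤ (harmonic L : ℝ)) (x : ℝ) :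
    fieldLog K (pt (1 / 2 + 4 / (harmonic L : ℝ)) x) ≤
      4 * (logGenus K + 16 * √(L : ℝ) + 16 * Real.log (|x| + 3) * finrank ℚ K) := by
  obtain ⟨H, hH⟩ : ∃ H : ℝ, H = (harmonic L : ℝ) := ⟨_, rfl⟩
  rw [← hH] at hL ⊢
  have hH0 : 0 < H := by linarith
  have ha : 0 < 4 / H := by positivity
  have ha1 : 4 / H ≤ 1 / 4 := by rw [div_le_iff₀ hH0]; linarith
  have hσ : 1 / 2 < 1 / 2 + 4 / H := by linarith
  have hσ1 : 1 / 2 + 4 / H ≤ 3 / 4 := by linarith
  have e2 : 2 / (4 / H) = H / 2 := by field_simp; ring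
  have hx := abs_avgAlt_fieldLog_le K hRH L ha x
  have h0 := abs_avgAlt_fieldLog_le K hRH L ha 0
  rw [avgAlt_fieldLog_eq K L (by linarith : 0 < 1 / 2 + 4 / H), ← hH, e2, abs_le] at hx h0
  have r0 := abs_le.1 (abs_avgAlt_rest_le K (x := 0) hσ hσ1 L)
  have rx := abs_le.1 (abs_avgAlt_rest_le K (x := x) hσ hσ1 L)
  rw [← hH] at r0 rx
  have hv := abs_le.1 (abs_avgAlt_primeTerms_le K (x := x) hσ L)
  have hlog : Real.log (|(0 : ℝ)| + 3) * finrank ℚ K ≤ Real.log (|x| + 3) * finrank ℚ K :=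
    mul_le_mul_of_nonneg_right (Real.log_le_log (by norm_num) (by simp)) (Nat.cast_nonneg _)
  have hH' := mul_le_mul_of_nonneg_left hlog hH0.le
  have hf := mul_nonneg hH0.le (fieldLog_nonneg K hRH hσ 0)
  refine le_of_mul_le_mul_left ?_ hH0
  linear_combination 2 * hx.2 + 2 * hv.2 + 2 * h0.2 + 2 * rx.1 + 2 * r0.1 + 32 * hH' + hf

/-- The ordinates in `[t - w, t + w]` are bounded by `re ξ'/ξ` at `1/2 + a + i t`. -/
theorem countIcc_le_fieldLog (hRH : RHFor K) {a w : ℝ} (ha : 0 < a) (t : ℝ) :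
    countIcc K (t - w) (t + w) ≤
      (a ^ 2 + w ^ 2) / a * fieldLog K (pt (1 / 2 + a) t) := by
  obtain ⟨T, -, hT, hc⟩ := exists_zero_set K (t - w) (t + w)
  rw [hc]
  have hs := (hasSum_reTerm K (xiFun_pt_ne K hRH (σ := 1 / 2 + a) (by linarith) t)).mul_left
    ((a ^ 2 + w ^ 2) / a)
  refine le_trans (Finset.sum_le_sum fun ρ hρ => ?_) (sum_le_hasSum T (fun ρ _ => ?_) hs)
  · rw [reTerm_pt K hRH, add_sub_cancel_left, mul_left_comm]
    refine le_mul_of_one_le_right (Nat.cast_nonneg _) ?_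
    have hd : (t - ρ.im) ^ 2 ≤ w ^ 2 := by
      have := hT ρ hρ
      nlinarith
    rw [div_mul_div_comm, le_div_iff₀ (by positivity)]
    nlinarith [mul_le_mul_of_nonneg_left hd ha.le]
  · rw [reTerm_pt K hRH, add_sub_cancel_left]
    positivity

/-- **The ordinates in a window of radius `1/log G`.** -/
theorem exists_window_bound : ∃ C : ℝ, 0 < C ∧
    ∀ (K : Type u) [Field K] [NumberField K], RHFor K → ∀ t : ℝ,
      countIcc K (t - 1 / Real.log (logGenus K + finrank ℚ K * Real.log (|t| + 3) + 3))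
          (t + 1 / Real.log (logGenus K + finrank ℚ K * Real.log (|t| + 3) + 3)) ≤
        C * (logGenus K + finrank ℚ K * Real.log (|t| + 3) + 3) /
          Real.log (logGenus K + finrank ℚ K * Real.log (|t| + 3) + 3) := by
  obtain ⟨L0, hL0⟩ : ∃ L0, L0 = ⌈Real.exp 16⌉₊ := ⟨_, rfl⟩
  obtain ⟨C0, hC0⟩ : ∃ C0 : ℝ, C0 = 3 + Real.log ((L0 : ℝ) + 1) := ⟨_, rfl⟩
  have hC0p : 0 < C0 := hC0 ▸ add_pos_of_pos_of_nonneg (by norm_num)
    (Real.log_nonneg (le_add_of_nonneg_left (Nat.cast_nonneg L0)))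
  refine ⟨(2 + C0 / 4) * (4 * (17 + 16 * √((L0 : ℝ) + 1))), by positivity, fun K _ _ hRH t => ?_⟩
  obtain ⟨G, hG⟩ : ∃ G, G = logGenus K + finrank ℚ K * Real.log (|t| + 3) + 3 := ⟨_, rfl⟩
  rw [← hG]
  have hl : 0 ≤ (finrank ℚ K : ℝ) * Real.log (|t| + 3) :=
    mul_nonneg (Nat.cast_nonneg _) (Real.log_nonneg (by linarith [abs_nonneg t]))
  have hg := logGenus_nonneg K
  have hG3 : 3 ≤ G := by linarith
  have hl1 : 1 ≤ Real.log G := by
    rw [Real.le_log_iff_exp_le (by linarith)]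
    linarith [Real.exp_one_lt_d9]
  obtain ⟨L, hL⟩ : ∃ L, L = max ⌊G ^ 2⌋₊ L0 := ⟨_, rfl⟩
  have hLu : (L : ℝ) ≤ ((L0 : ℝ) + 1) * G ^ 2 := by
    have h1 : (⌊G ^ 2⌋₊ : ℝ) ≤ G ^ 2 := Nat.floor_le (by positivity)
    have h2 : (1 : ℝ) ≤ G ^ 2 := by nlinarith
    have h3 : (0 : ℝ) ≤ L0 := Nat.cast_nonneg L0
    rw [hL, Nat.cast_max]
    refine max_le ?_ ?_ <;> nlinarith
  have hlo := log_add_one_le_harmonic L
  push_cast at hlo
  have hH16 : 16 ≤ (harmonic L : ℝ) := by
    refine le_trans ((Real.le_log_iff_exp_le (by positivity)).2 ?_) hlo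
    have h1 : (L0 : ℝ) ≤ L := Nat.cast_le.2 (hL ▸ le_max_right _ _)
    have h2 : Real.exp 16 ≤ L0 := hL0 ▸ Nat.le_ceil _
    linarith
  have hH2 : 2 * Real.log G ≤ (harmonic L : ℝ) := by
    refine le_trans ?_ hlo
    rw [show 2 * Real.log G = Real.log (G ^ 2) by rw [Real.log_pow]; norm_num]
    refine Real.log_le_log (by positivity) ?_
    have h1 : (⌊G ^ 2⌋₊ : ℝ) ≤ L := Nat.cast_le.2 (hL ▸ le_max_left _ _)
    linarith [Nat.lt_floor_add_one (G ^ 2)]
  have hHu : (harmonic L : ℝ) ≤ C0 * Real.log G := by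
    refine (harmonic_le_one_add_log L).trans ?_
    have hL1 : (0 : ℝ) < L := by
      rcases Nat.eq_zero_or_pos L with h | h
      · simp [h] at hH16
        linarith
      · exact Nat.cast_pos.2 h
    have h := Real.log_le_log hL1 hLu
    rw [Real.log_mul (by positivity) (by positivity), Real.log_pow] at h
    push_cast at h
    rw [hC0]
    nlinarith [Real.log_nonneg (le_add_of_nonneg_left (Nat.cast_nonneg (α := ℝ) L0) :
      (1 : ℝ) ≤ (L0 : ℝ) + 1)]
  have hf := fieldLog_le_harmonic K hRH hH16 t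
  have hf' : fieldLog K (pt (1 / 2 + 4 / (harmonic L : ℝ)) t) ≤
      4 * (17 + 16 * √((L0 : ℝ) + 1)) * G := by
    have hs : √(L : ℝ) ≤ √((L0 : ℝ) + 1) * G := by
      refine (Real.sqrt_le_sqrt hLu).trans_eq ?_
      rw [Real.sqrt_mul (by positivity), Real.sqrt_sq (by linarith)]
    linarith
  have hH0 : 0 < (harmonic L : ℝ) := by linarith
  refine (countIcc_le_fieldLog K hRH (a := 4 / (harmonic L : ℝ)) (by positivity) t).trans ?_
  have hw : ((4 / (harmonic L : ℝ)) ^ 2 + (1 / Real.log G) ^ 2) / (4 / (harmonic L : ℝ)) ≤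
      (2 + C0 / 4) / Real.log G := by
    have h1 : 4 / (harmonic L : ℝ) ≤ 2 / Real.log G := by
      rw [div_le_div_iff₀ hH0 (by linarith)]
      linarith
    have h2 : (1 / Real.log G) ^ 2 / (4 / (harmonic L : ℝ)) ≤ C0 / 4 / Real.log G := by
      rw [show (1 / Real.log G) ^ 2 / (4 / (harmonic L : ℝ)) =
          (harmonic L : ℝ) / (4 * Real.log G ^ 2) by field_simp,
        div_div, div_le_div_iff₀ (by positivity) (by linarith)]
      nlinarith [mul_le_mul_of_nonneg_left hHu (show 0 ≤ 4 * Real.log G by linarith)]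
    rw [add_div, sq (4 / (harmonic L : ℝ)), mul_div_assoc, div_self (by positivity), mul_one,
      add_div]
    linarith
  refine (mul_le_mul hw hf' (fieldLog_nonneg K hRH (by
    linarith [div_pos (show (0 : ℝ) < 4 by norm_num) hH0]) t) (by positivity)).trans_eq ?_
  ring

end FA.DedekindMultiplicity

end
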