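import Fermat.Agent.DedekindMultiplicity.Average
import Fermat.Agent.GRHBasicInequality.Main

/-!
# The poles, the infinite places and the primes in the averaged differences

At `σ + i x`, `1/2 < σ ≤ 3/4`: the poles give `O (√k)`, the infinite places `O (n log (|x| + 3))`,
and the primes at most what they give at the real point, where positivity bounds them.
-/

set_option autoImplicit false
set_option linter.style.haveILetI false

noncomputable section

universe u

open NumberField InfinitePlace Module Filter Topology Set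
open FA.HeckeBS FA.TsfasmanVladut FA.EulerKroneckerFamilies FA.GRHBasicInequality
open FA.FamilyZeroDensity FA.DedekindHadamard
open scoped Real Classical

namespace FA.DedekindMultiplicity

theorem re_altSum (f : ℕ → ℂ) (k : ℕ) :
    altSum k (fun j => (f j).re) = (altSum k f).re := by
  simp only [altSum, Complex.re_sum]
  refine Finset.sum_congr rfl fun j _ => ?_
  rw [show ((-1) ^ j * (k.choose j : ℂ)) = (((-1) ^ j * (k.choose j : ℝ) : ℝ) : ℂ) by
    push_cast; rfl, Complex.re_ofReal_mul]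

/-- The poles at `s + j`, `j ≥ 1`. -/
def poleTerms (s : ℂ) (j : ℕ) : ℝ := if j = 0 then 0 else ((s + j)⁻¹).re + ((s + j - 1)⁻¹).re

theorem abs_altSum_poleTerms_le {σ x : ℝ} (hσ : 1 / 2 < σ) (hσ1 : σ ≤ 3 / 4) {k : ℕ}
    (hk : 1 ≤ k) : |altSum k (poleTerms (pt σ x))| ≤ 16 * √(k : ℝ) := by
  obtain ⟨c, hc⟩ : ∃ c, c = pt σ x - 1 := ⟨_, rfl⟩
  have hcre : c.re = σ - 1 := by rw [hc]; simp
  have hsne : ∀ i : ℕ, pt σ x + i ≠ 0 := fun i h => by
    have := congrArg Complex.re h
    simp at this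
    linarith [(Nat.cast_nonneg i : (0 : ℝ) ≤ i)]
  have hcne : ∀ i : ℕ, c + i ≠ 0 := fun i h => by
    have := congrArg Complex.re h
    simp [hcre] at this
    rcases Nat.eq_zero_or_pos i with rfl | hi
    · simp at this
      linarith
    · linarith [(Nat.one_le_cast.2 hi : (1 : ℝ) ≤ i)]
  have e1 : altSum k (poleTerms (pt σ x)) =
      (altSum k (fun j : ℕ => (pt σ x + j)⁻¹)).re + (altSum k (fun j : ℕ => (c + j)⁻¹)).re -
        (((pt σ x)⁻¹).re + (c⁻¹).re) := by
    rw [← re_altSum, ← re_altSum, ← altSum_add]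
    unfold poleTerms
    rw [altSum_ite]
    simp only [Nat.cast_zero, add_zero, hc]
    rw [zero_sub, ← sub_eq_add_neg]
    congr 2
    funext j
    rw [sub_add_eq_add_sub]
  have hr1 : ‖altSum k (fun j : ℕ => (pt σ x + j)⁻¹)‖ ≤ 2 := by
    rw [altSum_inv_add k hsne]
    refine (norm_cRatio_le k (by rw [pt_re]; linarith)).trans ?_
    have h := Complex.re_le_norm (pt σ x)
    rw [pt_re] at h
    exact (inv_anti₀ (by norm_num) (hσ.le.trans h)).trans_eq (by norm_num)
  have hcn : 1 / 4 ≤ ‖c‖ := le_trans (by rw [hcre, abs_of_nonpos (by linarith)]; linarith)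
    (Complex.abs_re_le_norm c)
  have hr2 : ‖altSum k (fun j : ℕ => (c + j)⁻¹)‖ ≤ 8 * √(k : ℝ) := by
    rw [altSum_inv_add k hcne, norm_div, Complex.norm_natCast, norm_prod, Finset.prod_range_succ',
      Nat.cast_zero, add_zero]
    have hP : ∏ i ∈ Finset.range k, ((i : ℝ) + 1 / 2) ≤
        ∏ i ∈ Finset.range k, ‖c + ((i + 1 : ℕ) : ℂ)‖ :=
      Finset.prod_le_prod (fun i _ => by positivity) fun i _ =>
        le_trans (by simp [hcre]; linarith) (Complex.re_le_norm _)
    have hpos : 0 < ∏ i ∈ Finset.range k, ((i : ℝ) + 1 / 2) :=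
      Finset.prod_pos fun i _ => by positivity
    rw [div_le_iff₀ (mul_pos (hpos.trans_le hP) (by linarith))]
    refine (factorial_le_sqrt hk).trans ?_
    calc 2 * √(k : ℝ) * ∏ i ∈ Finset.range k, ((i : ℝ) + 1 / 2)
        ≤ 2 * √(k : ℝ) * ∏ i ∈ Finset.range k, ‖c + ((i + 1 : ℕ) : ℂ)‖ :=
          mul_le_mul_of_nonneg_left hP (by positivity)
      _ = 8 * √(k : ℝ) * ((∏ i ∈ Finset.range k, ‖c + ((i + 1 : ℕ) : ℂ)‖) * (1 / 4)) := by ring
      _ ≤ _ := mul_le_mul_of_nonneg_left
          (mul_le_mul_of_nonneg_left hcn (hpos.trans_le hP).le) (by positivity)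
  have hi1 : |((pt σ x)⁻¹).re| ≤ 2 := by
    refine (Complex.abs_re_le_norm _).trans ?_
    rw [norm_inv]
    have h := Complex.re_le_norm (pt σ x)
    rw [pt_re] at h
    exact (inv_anti₀ (by norm_num) (hσ.le.trans h)).trans_eq (by norm_num)
  have hi2 : |(c⁻¹).re| ≤ 4 := by
    refine (Complex.abs_re_le_norm _).trans ?_
    rw [norm_inv]
    exact (inv_anti₀ (by norm_num) hcn).trans_eq (by norm_num)
  have hs1 : 1 ≤ √(k : ℝ) := Real.one_le_sqrt.2 (Nat.one_le_cast.2 hk)
  rw [e1]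
  have a1 := abs_le.1 ((Complex.abs_re_le_norm _).trans hr1)
  have a2 := abs_le.1 ((Complex.abs_re_le_norm _).trans hr2)
  rw [abs_le] at hi1 hi2 ⊢
  constructor <;> linarith

theorem abs_rateAt_le {s : ℂ} (h1 : 1 / 2 ≤ s.re) (h2 : s.re ≤ 1) :
    |realRateAt s| ≤ 11 + 3 * Real.log (|s.im| + 3) ∧
      |complexRateAt s| ≤ 11 + 3 * Real.log (|s.im| + 3) := by
  have hn : ‖s‖ ≤ |s.im| + 1 := by
    refine (Complex.norm_le_abs_re_add_abs_im s).trans ?_
    rw [abs_of_nonneg (by linarith : 0 ≤ s.re)]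
    linarith
  have hb : ∀ z : ℂ, 1 / 4 ≤ z.re → ‖z‖ ≤ |s.im| + 1 →
      |(Complex.digamma z).re| ≤ 9 + 3 * Real.log (|s.im| + 3) := fun z hz hz' => by
    refine (Complex.abs_re_le_norm _).trans ?_
    rw [Complex.digamma_def, logDeriv_apply]
    refine (FA.ExplicitFormula.norm_digamma_le hz).trans ?_
    have := Real.log_le_log (by positivity : 0 < ‖z‖ + 2) (show ‖z‖ + 2 ≤ |s.im| + 3 by linarith)
    linarith
  have b1 := abs_le.1 (hb (s / 2) (by rw [Complex.div_ofNat_re]; linarith) (by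
    rw [norm_div, Complex.norm_two]; linarith [norm_nonneg s]))
  have b2 := abs_le.1 (hb s (by linarith) hn)
  have hπ0 : 0 ≤ Real.log π := Real.log_nonneg (by linarith [Real.pi_gt_three])
  have hπ : Real.log (2 * π) ≤ 2 := by
    rw [Real.log_le_iff_le_exp (by positivity), show (2 : ℝ) = 1 + 1 by norm_num, Real.exp_add]
    nlinarith [Real.exp_one_gt_d9, Real.pi_lt_d2]
  have hπ' : Real.log π ≤ Real.log (2 * π) :=
    Real.log_le_log Real.pi_pos (by linarith [Real.pi_pos])
  rw [realRateAt, complexRateAt, abs_le, abs_le]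
  refine ⟨⟨?_, ?_⟩, ?_, ?_⟩ <;> linarith

variable (K : Type u) [Field K] [NumberField K]

/-- The infinite places at `s + j`, `j ≥ 1`. -/
def archTerms (s : ℂ) (j : ℕ) : ℝ :=
  if j = 0 then 0
  else nrRealPlaces K * realRateAt (s + j) + nrComplexPlaces K * complexRateAt (s + j)

theorem abs_altSum_archTerms_le {σ x : ℝ} (hσ : 1 / 2 < σ) (hσ1 : σ ≤ 1) {k : ℕ} (hk : 1 ≤ k) :
    |altSum k (archTerms K (pt σ x))| ≤ 16 * Real.log (|x| + 3) * finrank ℚ K := by
  obtain ⟨m, rfl⟩ : ∃ m, k = m + 1 := ⟨k - 1, by omega⟩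
  have hd := abs_altSum_rateAt_le m (show 0 < (pt σ x).re by rw [pt_re]; linarith)
  rw [pt_re] at hd
  have hf : fdRatio σ m ≤ 2 := (fdRatio_le_zero (by linarith) m).trans
    ((inv_anti₀ (by norm_num) hσ.le).trans_eq (by norm_num))
  obtain ⟨h1, h2⟩ := abs_rateAt_le (s := pt σ x) (by rw [pt_re]; linarith) (by rw [pt_re]; linarith)
  rw [pt_im] at h1 h2
  have hl : 1 ≤ Real.log (|x| + 3) := by
    rw [Real.le_log_iff_exp_le (by positivity)]
    linarith [Real.exp_one_lt_d9, abs_nonneg x]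
  rw [show altSum (m + 1) (archTerms K (pt σ x)) =
      nrRealPlaces K *
        ((altSum (m + 1) fun j : ℕ => realRateAt (pt σ x + j)) - realRateAt (pt σ x)) +
      nrComplexPlaces K *
        ((altSum (m + 1) fun j : ℕ => complexRateAt (pt σ x + j)) - complexRateAt (pt σ x)) by
    unfold archTerms
    rw [altSum_ite, altSum_add, altSum_mul_left, altSum_mul_left, Nat.cast_zero, add_zero]
    ring]
  have hbR : |(altSum (m + 1) fun j : ℕ => realRateAt (pt σ x + j)) - realRateAt (pt σ x)| ≤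
      16 * Real.log (|x| + 3) := (abs_sub _ _).trans (by linarith [hd.1])
  have hbC : |(altSum (m + 1) fun j : ℕ => complexRateAt (pt σ x + j)) - complexRateAt (pt σ x)| ≤
      16 * Real.log (|x| + 3) := (abs_sub _ _).trans (by linarith [hd.2])
  refine (abs_add_le _ _).trans ?_
  rw [abs_mul, abs_mul, Nat.abs_cast, Nat.abs_cast, ← degree_split K]
  have r0 : (0 : ℝ) ≤ nrRealPlaces K := Nat.cast_nonneg _
  have c0 : (0 : ℝ) ≤ nrComplexPlaces K := Nat.cast_nonneg _
  linarith [mul_le_mul_of_nonneg_left hbR r0, mul_le_mul_of_nonneg_left hbC c0,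
    mul_nonneg c0 (by linarith : 0 ≤ Real.log (|x| + 3))]

/-- The primes at `s + j`, `j ≥ 1`. -/
def primeTerms (s : ℂ) (j : ℕ) : ℝ :=
  if j = 0 then 0 else ∑' q : ℕ, (placeCount K q : ℝ) * weightRe (s + j) q

theorem hasSum_primeTerms {σ x : ℝ} (hσ : 0 < σ) (k : ℕ) :
    HasSum (fun q : ℕ => (placeCount K q : ℝ) *
      altSum k fun j : ℕ => if j = 0 then 0 else weightRe (pt σ x + j) q)
      (altSum k (primeTerms K (pt σ x))) := by
  have hs : HasSum (fun q : ℕ => altSum k fun j : ℕ =>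
      if j = 0 then 0 else (placeCount K q : ℝ) * weightRe (pt σ x + j) q)
      (altSum k (primeTerms K (pt σ x))) := by
    refine hasSum_sum fun j _ => HasSum.mul_left _ ?_
    simp only [primeTerms]
    split_ifs with hj
    · exact hasSum_zero
    · have h1 : 1 < (pt σ x + j).re := by
        have : (1 : ℝ) ≤ j := Nat.one_le_cast.2 (Nat.pos_of_ne_zero hj)
        simp
        linarith
      exact (hasSum_fiber K (hasSum_weightRe_places K h1)).summable.hasSum
  refine hs.congr_fun fun q => ?_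
  rw [← altSum_mul_left]
  congr 1
  funext j
  split_ifs <;> simp

/-- **The primes are largest at the real point.** -/
theorem abs_altSum_primeTerms_le {σ x : ℝ} (hσ : 1 / 2 < σ) (k : ℕ) :
    |altSum k (primeTerms K (pt σ x))| ≤ -altSum k (primeTerms K (pt σ 0)) := by
  have hσ0 : 0 < σ := by linarith
  have hpt0 : pt σ 0 = (σ : ℂ) := by simp [pt]
  rw [← Real.norm_eq_abs, ← (hasSum_primeTerms K hσ0 k).tsum_eq]
  refine tsum_of_norm_bounded (hasSum_primeTerms K (x := 0) hσ0 k).neg fun q => ?_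
  rw [norm_mul, Real.norm_of_nonneg (Nat.cast_nonneg _), ← mul_neg]
  refine mul_le_mul_of_nonneg_left ?_ (Nat.cast_nonneg _)
  rcases Nat.lt_or_ge q 2 with hq | hq
  · have h0 : ∀ y : ℝ, (altSum k fun j : ℕ => if j = 0 then (0 : ℝ) else weightRe (pt σ y + j) q) =
        0 := fun y => by simp [altSum, weightRe_small hq]
    simp [h0]
  have hre : (altSum k fun j : ℕ => if j = 0 then (0 : ℝ) else weightRe (pt σ 0 + j) q) =
      -primeWeight σ k q := by
    rw [primeWeight, neg_neg]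
    congr 1
    funext j
    rw [hpt0, show ((σ : ℂ) + j) = ((σ + j : ℝ) : ℂ) by push_cast; ring, weightRe_ofReal]
  have hsre : 0 < (pt σ x).re := by rwa [pt_re]
  rw [hre, neg_neg, altSum_ite, Nat.cast_zero, add_zero, zero_sub, ← sub_eq_add_neg,
    ← ((hasSum_altSum_weightRe hsre k hq).sub (weightRe_hasSum hsre hq)).tsum_eq]
  refine tsum_of_norm_bounded (primeWeight_hasSum hσ0 k hq) fun m => ?_
  obtain ⟨h1, -⟩ := norm_natCast_cpow_gt hsre hq
  have hx : (q : ℝ)⁻¹ ≤ 1 := inv_le_one_of_one_le₀ (Nat.one_le_cast.2 (by omega))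
  have hy : (1 - ((q : ℝ)⁻¹) ^ (m + 1)) ^ k ≤ 1 :=
    pow_le_one₀ (sub_nonneg.2 (pow_le_one₀ (by positivity) hx)) (sub_le_self _ (by positivity))
  rw [Complex.re_mul_ofReal, ← mul_sub, norm_mul, Real.norm_of_nonneg (Real.log_natCast_nonneg q),
    mul_assoc]
  refine mul_le_mul_of_nonneg_left ?_ (Real.log_natCast_nonneg q)
  rw [← mul_sub_one, norm_mul, Real.norm_eq_abs, Real.norm_eq_abs,
    abs_of_nonpos (sub_nonpos.2 hy), neg_sub]
  refine mul_le_mul_of_nonneg_right ((Complex.abs_re_le_norm _).trans (le_of_eq ?_))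
    (sub_nonneg.2 hy)
  rw [norm_pow, Complex.cpow_neg, norm_inv, h1, pt_re, Real.rpow_neg (Nat.cast_nonneg q)]

end FA.DedekindMultiplicity

end
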